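import Fermat.Agent.A2.Alg.H34.Basic

/-!
# RIBET, wall at `p`, target S2 (I4 + I5) — ALG-p: frozen abstract interface (helper103)

Sub-architect file for `Fermat.Agent.Ribet.H944.Wall.S2For` ("inertia acts through the cyclotomic
character on the new part of the split part").  This file is the ABSTRACT half (Mathlib + the
definitions of `A2/Spec.lean`, `A2/Alg/Spec.lean` only): the analogue at `m = p = ` residue
characteristic of A2's `AlgSSStatement`.  It contains definitions, three leaf `Prop`s and the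
PROVED assembly `algP_of_leaves`.

Setting (verbatim the context of `A2.AlgSSStatement`): `R` henselian DVR with algebraically closed
residue field of characteristic `p`, `E = Frac R` of characteristic `0`, `ζ ∈ R` a primitive
`p`-th root of unity, `lam := ζ - 1` (so `p = unit * lam ^ (p - 1)` and `w ∣ lam`), `F / E` a
function field, `B` a chart with `c : SSChart w B` (components `p₁`, `p₂`; `V_i := B_{p_i}`),
`τ` a semilinear automorphism, `≡ id` modulo `w` on the charts, with `τ ζ = ζ ^ k`.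

Predicates (all elementwise, in the style of `A2/Alg/Spec.lean`):

* `DeepAt B 𝔮 π u`        : `u ∈ 1 + π · B_𝔮`;
* `IsDeepSplit B c π u`   : `u ∈ 1 + π V₁` and `u ∈ 1 + π V₂`   (used with `π = lam ^ p * w`:
                            then `u` is a `p`-th power in the completions at `V₁`, `V₂`, and the
                            sheet `Y ≡ 0` of the Artin–Schreier cover
                            `(1 + lam Y) ^ p = u`, i.e. `Y ^ p - Y ≡ (u - 1) / lam ^ p`, is
                            canonical on both components);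
* `WildPureAt B c p lam u n` : `u · g ^ p ∈ 1 + lam ^ p · B_n` for some `g ≡ 1 mod lam` on the
                            components through `n` (the Kummer cover is Artin–Schreier, hence
                            ETALE, over `B_n`);
* `LocalFactorP B c p lam u n` : `u · h ^ p ∈ 1 + lam ^ p w · B_n` for some `h ≡ 1 mod lam w` on
                            the components through `n` (étale at `n` with TRIVIAL label: the
                            canonical sheets of the components through `n` meet over `n`).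

Leaves:

* `WildPurityLeaf` (WP)  : `PureAt` (A2) + `IsDeepSplit` ⟹ `WildPureAt`.
     Proof sketch: `u d ^ p = υ ∈ B_nˣ`.  Induction on `0 ≤ j ≤ a` (`lam = unit * w ^ a`): there is
     `s ∈ B_nˣ` with `s / d ∈ 1 + w ^ j V_i` for the components through `n`.  Step: write
     `s / d = 1 + w ^ j b_i`; then `υ / s ^ p ≡ 1 - w ^ (j p) b_i ^ p  mod w ^ (j p + 1) V_i`
     (`j < a`), so `(1 - υ / s ^ p) / w ^ (j p) ∈ B_n` (`p₁ ⊓ p₂ = (w)`) has residue `b̄_i ^ p` on
     `C_i`; `B ⧸ p_i` is normal, so `b̄_i` is regular at `n`; at a crossing point the two values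
     `b̄_1(n)`, `b̄_2(n)` are `p`-th roots of the same element of `k`, hence equal, and
     `(p₁ ⊔ p₂)` radical gives `b ∈ B_n` lifting both; replace `s` by `s (1 + w ^ j b)`.
     At `j = a`: `g := d / s`, `u g ^ p = υ / s ^ p ∈ (1 + lam ^ p V₁) ∩ (1 + lam ^ p V₂) ∩ B_n`.
* `LabelLeaf` (LABEL)    : `WildPureAt u n` ⟹ `LocalFactorP (τ u / u ^ k) n`   (`τ ζ = ζ ^ k`).
     Proof: `v := u g ^ p = 1 + lam ^ p z`, `h := τ g / g ^ k`; `τ lam = lam (k + lam r)`,
     `(k + lam r) ^ p ∈ k + lam ^ (p - 1) R`, `τ z - z ∈ w B_n`, `τ g' - g' ∈ w V_i`.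
* `GluePLeaf` (GLUE-p)   : `LocallyFactoredP` on both charts ⟹ `u` is a `p`-th power.
     Proof: `A2.H729.generic_idempotent_trivial` for the field `F(y)`, `y ^ p = u`, and the
     generic idempotent `e₀ = 1 - Y ^ (p - 1)`, `Y = (y - 1) / lam` (`Y ^ p ≡ Y mod w`); the
     generator of `Gal(F(y)/F)` acts by `Y ↦ Y + 1 mod lam`, so `e₀ ≢ 0, 1` if `y ∉ F`.
     (`E` is algebraically closed in `F(y)`: `V₁` splits completely, cf. `A2/H552/HConst.lean`.)

Assembly (PROVED here): `algP_of_leaves : WP → LABEL → GLUE-p → AlgPStatement`.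
-/

set_option autoImplicit false

namespace Fermat.Agent.Ribet.H103.AlgP

open Fermat.Agent.A2 Fermat.Agent.A2.Alg Fermat.Agent.A2.Alg.H34

section Defs

variable {R F : Type*} [CommRing R] [Field F] [Algebra R F]

/-- `u ∈ 1 + π · B_𝔮`: `u = a / b` with `b ∉ 𝔮` and `a - b ∈ π B`. -/
def DeepAt (B : Subalgebra R F) (𝔮 : Ideal B) (π : R) (u : F) : Prop :=
  LocOne B 𝔮 (Ideal.span {algebraMap R B π}) u

/-- `u ≡ 1` modulo `π` on both components of the chart. -/
def IsDeepSplit {w : R} (B : Subalgebra R F) (c : SSChart w B) (π : R) (u : F) : Prop :=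
  DeepAt B c.p₁ π u ∧ DeepAt B c.p₂ π u

/-- **Wild purity datum at `n`**: `u · g ^ p ∈ 1 + lam ^ p · B_n` with `g ≡ 1 mod lam` on the
components through `n`. -/
def WildPureAt {w : R} (B : Subalgebra R F) (c : SSChart w B) (p : ℕ) (lam : R) (u : F)
    (n : Ideal B) : Prop :=
  ∃ g : F, g ≠ 0 ∧ DeepAt B n (lam ^ p) (u * g ^ p) ∧
    (c.p₁ ≤ n → DeepAt B c.p₁ lam g) ∧ (c.p₂ ≤ n → DeepAt B c.p₂ lam g)

/-- **Local factorisation at `n` (wild form, trivial label)**:
`u · h ^ p ∈ 1 + lam ^ p w · B_n` with `h ≡ 1 mod lam w` on the components through `n`. -/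
def LocalFactorP {w : R} (B : Subalgebra R F) (c : SSChart w B) (p : ℕ) (lam : R) (u : F)
    (n : Ideal B) : Prop :=
  ∃ h : F, h ≠ 0 ∧ DeepAt B n (lam ^ p * w) (u * h ^ p) ∧
    (c.p₁ ≤ n → DeepAt B c.p₁ (lam * w) h) ∧ (c.p₂ ≤ n → DeepAt B c.p₂ (lam * w) h)

/-- Wild local factorisations at ALL closed points of the special fibre of the chart `B`. -/
def LocallyFactoredP {w : R} (B : Subalgebra R F) (c : SSChart w B) (p : ℕ) (lam : R)
    (u : F) : Prop :=
  ∀ n : Ideal B, n.IsMaximal → algebraMap R B w ∈ n → LocalFactorP B c p lam u n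

end Defs

/-! ## The three leaves -/

/-- **Leaf WP** (wild purity): a deeply split class which is pure at the closed point `n` is
wildly pure at `n`. -/
def WildPurityLeaf : Prop :=
  ∀ {R E F : Type} [CommRing R] [IsDomain R] [IsDiscreteValuationRing R]
    [HenselianLocalRing R] [IsAlgClosed (IsLocalRing.ResidueField R)]
    [Field E] [CharZero E] [Algebra R E] [IsFractionRing R E]
    [Field F] [Algebra E F] [Algebra R F] [IsScalarTower R E F]
    (p : ℕ) (_ : p.Prime) (_ : (p : R) ∈ IsLocalRing.maximalIdeal R)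
    (ζ : R) (_ : IsPrimitiveRoot ζ p)
    (w : R) (x : F) (B : Subalgebra R F) (_ : ChartCtx E w x B)
    (c : SSChart w B)
    (u : F) (_ : u ≠ 0) (_ : IsDeepSplit B c ((ζ - 1) ^ p * w) u)
    (n : Ideal B) (_ : n.IsMaximal) (_ : algebraMap R B w ∈ n)
    (_ : PureAt B c p u n), WildPureAt B c p (ζ - 1) u n

/-- **Leaf LABEL**: inertia multiplies the Artin–Schreier labels by the cyclotomic character:
if `u` is wildly pure at `n` and `τ ζ = ζ ^ k`, then `τ u / u ^ k` is locally factored at `n`. -/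
def LabelLeaf : Prop :=
  ∀ {R E F : Type} [CommRing R] [IsDomain R] [IsDiscreteValuationRing R]
    [HenselianLocalRing R] [IsAlgClosed (IsLocalRing.ResidueField R)]
    [Field E] [CharZero E] [Algebra R E] [IsFractionRing R E]
    [Field F] [Algebra E F] [Algebra R F] [IsScalarTower R E F]
    (p : ℕ) (_ : p.Prime) (_ : (p : R) ∈ IsLocalRing.maximalIdeal R)
    (ζ : R) (_ : IsPrimitiveRoot ζ p)
    (w : R) (_ : Irreducible w) (B : Subalgebra R F) (c : SSChart w B)
    (τ : F ≃+* F) (τE : E ≃+* E) (τR : R ≃+* R) (_ : TauCtx w B τ τE τR)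
    (k : ℕ) (_ : τR ζ = ζ ^ k)
    (u : F) (_ : u ≠ 0)
    (n : Ideal B) (_ : n.IsPrime) (_ : algebraMap R B w ∈ n)
    (_ : WildPureAt B c p (ζ - 1) u n),
    LocalFactorP B c p (ζ - 1) (τ u * (u ^ k)⁻¹) n

/-- **Leaf GLUE-p**: a class of order `p` which is locally factored (wild form) at every closed
point of the special fibre of both charts is trivial. -/
def GluePLeaf : Prop :=
  ∀ {R E F : Type} [CommRing R] [IsDomain R] [IsDiscreteValuationRing R]
    [HenselianLocalRing R] [IsAlgClosed (IsLocalRing.ResidueField R)]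
    [Field E] [CharZero E] [Algebra R E] [IsFractionRing R E]
    [Field F] [Algebra E F] [Algebra R F] [IsScalarTower R E F]
    (p : ℕ) (_ : p.Prime) (_ : (p : R) ∈ IsLocalRing.maximalIdeal R)
    (ζ : R) (_ : IsPrimitiveRoot ζ p)
    (w : R) (x : F) (Bf Bi : Subalgebra R F)
    (_ : ChartCtx E w x Bf) (_ : ChartCtx E w x⁻¹ Bi)
    (cf : SSChart w Bf) (ci : SSChart w Bi)
    (u : F) (_ : u ≠ 0) (_ : DivisibleDiv E p u)
    (_ : LocallyFactoredP Bf cf p (ζ - 1) u) (_ : LocallyFactoredP Bi ci p (ζ - 1) u),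
    ∃ y : F, y ≠ 0 ∧ u = y ^ p

/-! ## The interface statement and the assembly -/

/-- **ALG-p (interface statement).**  In the setting of `A2.AlgSSStatement` with residue
characteristic `p` and `ζ_p ∈ R`: if `u` has divisor divisible by `p`, is deeply split
(`≡ 1 mod (ζ-1)^p w` on both components of both charts) and pure at every closed point of the
special fibre, and `τ ζ = ζ ^ k`, then `τ u = h ^ p * u ^ k`. -/
def AlgPStatement : Prop :=
  ∀ {R E F : Type} [CommRing R] [IsDomain R] [IsDiscreteValuationRing R]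
    [HenselianLocalRing R] [IsAlgClosed (IsLocalRing.ResidueField R)]
    [Field E] [CharZero E] [Algebra R E] [IsFractionRing R E]
    [Field F] [Algebra E F] [Algebra R F] [IsScalarTower R E F]
    (p : ℕ) (_ : p.Prime) (_ : (p : R) ∈ IsLocalRing.maximalIdeal R)
    (ζ : R) (_ : IsPrimitiveRoot ζ p)
    (w : R) (_ : Irreducible w)
    (x : F) (_ : Transcendental E x)
    (_ : FiniteDimensional (IntermediateField.adjoin E ({x} : Set F)) F)
    (_ : ∀ f : F, IsAlgebraic E f → f ∈ (algebraMap E F).range)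
    (Bf Bi : Subalgebra R F)
    (_ : ∀ f : F, f ∈ Bf ↔ IsIntegral (Algebra.adjoin R ({x} : Set F)) f)
    (_ : ∀ f : F, f ∈ Bi ↔ IsIntegral (Algebra.adjoin R ({x⁻¹} : Set F)) f)
    (cf : SSChart w Bf) (ci : SSChart w Bi)
    (τ : F ≃+* F) (τE : E ≃+* E) (τR : R ≃+* R)
    (_ : ∀ e : E, τ (algebraMap E F e) = algebraMap E F (τE e))
    (_ : ∀ r : R, τE (algebraMap R E r) = algebraMap R E (τR r))
    (_ : ∀ b ∈ Bf, ∃ c ∈ Bf, τ b - b = algebraMap R F w * c)
    (_ : ∀ b ∈ Bi, ∃ c ∈ Bi, τ b - b = algebraMap R F w * c)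
    (k : ℕ) (_ : τR ζ = ζ ^ k)
    (u : F) (_ : u ≠ 0) (_ : DivisibleDiv E p u)
    (_ : IsDeepSplit Bf cf ((ζ - 1) ^ p * w) u) (_ : IsDeepSplit Bi ci ((ζ - 1) ^ p * w) u)
    (_ : ∀ n : Ideal Bf, n.IsMaximal → algebraMap R Bf w ∈ n → PureAt Bf cf p u n)
    (_ : ∀ n : Ideal Bi, n.IsMaximal → algebraMap R Bi w ∈ n → PureAt Bi ci p u n),
    ∃ h : F, h ≠ 0 ∧ τ u = h ^ p * u ^ k

section Asm

variable {R E F : Type} [CommRing R] [Field E] [Algebra R E] [Field F] [Algebra E F]
  [Algebra R F]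

/-- `m ∣ div (f ^ k)` if `m ∣ div f`. -/
theorem divisibleDiv_pow_h103 (m k : ℕ) (f : F) (hf : DivisibleDiv E m f) :
    DivisibleDiv E m (f ^ k) := by
  intro V hV hE
  obtain ⟨h, u, hh, hu, hu', rfl⟩ := hf V hV hE
  refine ⟨h ^ k, u ^ k, pow_ne_zero k hh, V.pow_mem hu k, ?_, ?_⟩
  · rw [← inv_pow]
    exact V.pow_mem hu' k
  · rw [mul_pow, ← pow_mul, ← pow_mul, mul_comm m k]

end Asm

/-- **ALG-p from its three leaves.** -/
theorem algP_of_leaves (hWP : WildPurityLeaf) (hL : LabelLeaf) (hG : GluePLeaf) :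
    AlgPStatement := by
  intro R E F _ _ _ _ _ _ _ _ _ _ _ _ _ p hp hpR ζ hζ w hw x hx hfin hconst Bf Bi hBf hBi
    cf ci τ τE τR hτE hτR hτf hτi k hk u hu hdiv hsf hsi hpf hpi
  have hCf : ChartCtx E w x Bf := ⟨hw, hx, hfin, hconst, hBf⟩
  have hCi : ChartCtx E w x⁻¹ Bi := chartCtx_inv w hw x hx hfin hconst Bi hBi
  have hTf : TauCtx w Bf τ τE τR := ⟨hτE, hτR, hτf⟩
  have hTi : TauCtx w Bi τ τE τR := ⟨hτE, hτR, hτi⟩
  have hτu : τ u ≠ 0 := (map_ne_zero τ).2 hu
  have huk : u ^ k ≠ 0 := pow_ne_zero k hu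
  have hu' : τ u * (u ^ k)⁻¹ ≠ 0 := mul_ne_zero hτu (inv_ne_zero huk)
  have hdiv' : DivisibleDiv E p (τ u * (u ^ k)⁻¹) :=
    divisibleDiv_mul_inv p _ _ (divisibleDiv_tau τ τE hτE p u hdiv)
      (divisibleDiv_pow_h103 p k u hdiv)
  have hf : LocallyFactoredP Bf cf p (ζ - 1) (τ u * (u ^ k)⁻¹) := fun n hn hwn =>
    hL p hp hpR ζ hζ w hw Bf cf τ τE τR hTf k hk u hu n hn.isPrime hwn
      (hWP p hp hpR ζ hζ w x Bf hCf cf u hu hsf n hn hwn (hpf n hn hwn))
  have hi : LocallyFactoredP Bi ci p (ζ - 1) (τ u * (u ^ k)⁻¹) := fun n hn hwn =>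
    hL p hp hpR ζ hζ w hw Bi ci τ τE τR hTi k hk u hu n hn.isPrime hwn
      (hWP p hp hpR ζ hζ w x⁻¹ Bi hCi ci u hu hsi n hn hwn (hpi n hn hwn))
  obtain ⟨y, hy, hyu⟩ := hG p hp hpR ζ hζ w x Bf Bi hCf hCi cf ci _ hu' hdiv' hf hi
  refine ⟨y, hy, ?_⟩
  rw [← hyu, mul_assoc, inv_mul_cancel₀ huk, mul_one]

end Fermat.Agent.Ribet.H103.AlgP
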