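import Fermat.Agent.Ribet.Spec
import Fermat.Agent.S13.H891.Frey
import Fermat.Agent.S41.H701.FinrankTorsion

/-!
# RIBET row, piece P1q (helper103): Mazur's principle at `q ≠ p` from the toric package

`mazurPrinciple_of : BLR → A2+ → DETF → NE → PL → R3 → R3' → MazurPrincipleStatement`
(the statement of `Skeleton.mazurPrinciple_of` of the row-lead, `coord/RIBET.md` §3 P1q).
Pure algebra; all geometric input is in the hypotheses (Props of `Ribet/Spec.lean`).
-/

set_option autoImplicit false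

open WeierstrassCurve WeierstrassCurve.Affine WeierstrassCurve.Affine.Point
open CuspForm ModularFormClass UpperHalfPlane

namespace Fermat.Agent.Ribet.H103

open Spec ModularCurve

/-! ### Small abstract lemmas -/

/-- If `p • x = 0`, `p ∤ c` and `c • x ∈ H` then `x ∈ H`. -/
theorem mem_of_zsmul_mem_h103 {J : Type*} [AddCommGroup J] (H : AddSubgroup J) {p : ℕ}
    (hp : p.Prime) {c : ℤ} (hc : ¬ (p : ℤ) ∣ c) {x : J} (hx : p • x = 0) (hcx : c • x ∈ H) :
    x ∈ H := by
  have hcop : IsCoprime c (p : ℤ) := by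
    rw [isCoprime_comm]
    exact (Nat.prime_iff_prime_int.mp hp).coprime_iff_not_dvd.mpr hc
  obtain ⟨a, b, hab⟩ := hcop
  have h1 : x = a • (c • x) + b • ((p : ℤ) • x) := by
    rw [smul_smul, smul_smul, ← add_smul, hab, one_smul]
  rw [h1, natCast_zsmul, hx, smul_zero, add_zero]
  exact H.zsmul_mem hcx a

/-- If `p • x = 0` and `q * q' ≡ 1 mod p` then `q' • (q • x) = x`. -/
theorem zsmul_inv_h103 {J : Type*} [AddCommGroup J] {p : ℕ} {q q' k : ℤ}
    (hqq' : q' * q = 1 + k * p) {x : J} (hx : p • x = 0) : q' • (q • x) = x := by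
  rw [smul_smul, hqq', add_smul, one_smul, mul_smul, natCast_zsmul, hx, smul_zero, add_zero]

/-! ### `E[p]` of the Frey curve -/

local notation "Qbar" => AlgebraicClosure ℚ

theorem freyTorsion_nsmul_h103 (P : FreyPackage) (z : FreyTorsion P) : P.p • z = 0 := by
  apply Subtype.ext
  have h := z.2
  rw [Submodule.mem_torsionBy_iff] at h
  rw [Submodule.coe_smul_of_tower, Submodule.coe_zero, ← natCast_zsmul]
  exact h

/-- Schur-type lemma: a Galois-equivariant additive involution of an irreducible `E[p]` is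
`± 1`. -/
theorem involution_eq_one_or_neg_one_h103 (P : FreyPackage)
    (hirr : GaloisRepIsIrreducible (K := AlgebraicClosure ℚ) ℚ P.freyCurve P.p)
    (U : FreyTorsion P →+ FreyTorsion P) (hUU : ∀ x, U (U x) = x)
    (hUσ : ∀ (σ : GQ) (x : FreyTorsion P), U (σ • x) = σ • U x) :
    (∀ x, U x = x) ∨ (∀ x, U x = -x) := by
  let Nplus : Submodule (ZMod P.p) (FreyTorsion P) :=
    { carrier := {x | U x = x}
      add_mem' := by
        intro a b ha hb
        change U a = a at ha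
        change U b = b at hb
        change U (a + b) = a + b
        rw [map_add, ha, hb]
      zero_mem' := by simp
      smul_mem' := by
        intro c x hx
        change U x = x at hx
        change U (c • x) = c • x
        rw [ZMod.map_smul, hx] }
  have hstable : IsGaloisStable ℚ Nplus := by
    intro σ x hx
    show U (σ • x) = σ • x
    rw [hUσ, show U x = x from hx]
  rcases hirr.2 Nplus hstable with h | h
  · right
    intro x
    have hx : x + U x ∈ Nplus := by
      show U (x + U x) = x + U x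
      rw [map_add, hUU, add_comm]
    rw [h, Submodule.mem_bot] at hx
    exact (eq_neg_of_add_eq_zero_right hx)
  · left
    intro x
    have hx : x ∈ Nplus := by rw [h]; exact Submodule.mem_top
    exact hx

theorem freyCurve_isElliptic_h103 (P : FreyPackage) : (P.freyCurve⁄Qbar).IsElliptic := by
  constructor
  rw [isUnit_iff_ne_zero]
  show (P.freyCurve.map (algebraMap ℚ Qbar)).Δ ≠ 0
  rw [WeierstrassCurve.map_Δ]
  exact (_root_.map_ne_zero _).mpr (Fermat.Agent.S13.H891.freyCurve_Δ_ne_zero P)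

theorem freyTorsion_finrank_h103 (P : FreyPackage) :
    Module.finrank (ZMod P.p) (FreyTorsion P) = 2 := by
  have := freyCurve_isElliptic_h103 P
  have : Fact P.p.Prime := ⟨P.pp⟩
  exact Fermat.Agent.S41.H701.finrank_torsion_eq_two_h701 (K := Qbar) P.freyCurve P.p

/-- If `σ` acts on `E[p]` through the integer scalar `c`, its determinant is `c ^ 2`. -/
theorem det_of_scalar_h103 (P : FreyPackage) (σ : GQ) (c : ℤ)
    (h : ∀ x : FreyTorsion P, σ • x = c • x) :
    LinearMap.det (galoisRepModuleEnd (S := ℚ) (K := AlgebraicClosure ℚ) P.freyCurve P.p σ)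
      = (c : ZMod P.p) ^ 2 := by
  have : Fact P.p.Prime := ⟨P.pp⟩
  have hsc : galoisRepModuleEnd (S := ℚ) (K := AlgebraicClosure ℚ) P.freyCurve P.p σ
      = (c : ZMod P.p) • LinearMap.id := by
    ext x : 1
    rw [galoisRepModuleEnd_apply, LinearMap.smul_apply, LinearMap.id_apply, h x,
      Int.cast_smul_eq_zsmul]
  rw [hsc, LinearMap.det_smul, LinearMap.det_id, mul_one, freyTorsion_finrank_h103]

/-! ### The reduction -/

/-- **(P1q) Mazur's principle at `q ≠ p`, `q ≢ 1 mod p`**, from the toric package (A2+), the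
embedding `E[p] ↪ J₀(N)` (BLR), the two dictionaries (R3), (R3'), `det Frob_q = q` (DETF),
non-Eisenstein-ness (NE) and existence of Frobenius elements (PL). -/
theorem mazurPrinciple_of (hE : EmbedStatement) (hT : ToricPackageStatement)
    (hDet : DetFrobStatement) (hNE : NonEisensteinStatement) (hPl : PlacesStatement)
    (hR3 : EigenformOfOccursStatement) (hR3' : AlmostAllToWitnessStatement) :
    MazurPrincipleStatement := by
  intro P L q hL hq hqp hqL hsq hirr hmod hunr hq1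
  obtain ⟨M', rfl⟩ := hqL
  have hM'pos : 0 < M' := Nat.pos_of_ne_zero (by rintro rfl; simp at hL)
  have hqM' : ¬ q ∣ M' := by
    rintro ⟨k, rfl⟩
    exact hsq ⟨k, by ring⟩
  rw [Nat.mul_div_cancel_left M' hq.pos]
  have : NeZero M' := ⟨hM'pos.ne'⟩
  have : NeZero (q * M') := ⟨hL.ne'⟩
  obtain ⟨f, W, 𝔪, hwit⟩ := hmod
  have hW : W.IsIntegralModelOf P.freyCurve := hwit.2.1
  obtain ⟨S, ι, hιinj, hισ, hιT⟩ := hE P (q * M') hirr f W 𝔪 hwit
  obtain ⟨A, hA, φ, hφ⟩ := hPl q hq
  obtain ⟨𝒯, 𝓕, β, u, h𝒯𝓕, h𝓕, hEis, hβ, hker, huσ, huT, huu, hφ𝒯⟩ :=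
    hT M' q P.p hq P.pp hqp hqM' A hA
  -- the bad set
  have hne0 : q * M' * P.p ≠ 0 := Nat.mul_ne_zero hL.ne' P.hp0
  set S' : Finset ℕ := S ∪ (q * M' * P.p).primeFactors with hS'
  have hS'1 : ∀ ℓ : ℕ, ℓ.Prime → ℓ ∉ S' → ℓ ∉ S ∧ ¬ ℓ ∣ q * M' * P.p := by
    intro ℓ hℓ hℓS'
    rw [hS', Finset.mem_union, not_or] at hℓS'
    refine ⟨hℓS'.1, fun hdvd => hℓS'.2 ?_⟩
    exact Nat.mem_primeFactors.mpr ⟨hℓ, hdvd, hne0⟩
  -- `p`-torsion and inertia invariance of the image
  have hιp : ∀ z, P.p • ι z = 0 := fun z => by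
    rw [← map_nsmul, freyTorsion_nsmul_h103, _root_.map_zero]
  have hιI : ∀ z, ∀ σ ∈ A.inertiaSubgroupIn ℚ, σ • ι z = ι z := fun z σ hσ => by
    have h1 : σ • z = z := hunr A hA σ hσ z
    rw [← hισ]
    exact congrArg ι h1
  -- non-Eisenstein: the image lies in the finite part `𝓕`
  obtain ⟨ℓ₀, hℓ₀, hℓ₀S, hℓ₀good, hℓ₀ne⟩ := hNE P W hW hirr S'
  have hιF : ∀ z, ι z ∈ 𝓕 := by
    intro z
    obtain ⟨h1, h2⟩ := hS'1 ℓ₀ hℓ₀ hℓ₀S
    have h3 := hEis (ι z) (hιp z) (hιI z) ⟨ℓ₀, hℓ₀⟩ h2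
    rw [hιT ⟨ℓ₀, hℓ₀⟩ h1 z] at h3
    have h4 : (W.apOfModel ℓ₀ - ((ℓ₀ : ℤ) + 1)) • ι z ∈ 𝓕 := by
      have e : (W.apOfModel ℓ₀ - ((ℓ₀ : ℤ) + 1)) • ι z
          = W.apOfModel ℓ₀ • ι z - (ℓ₀ + 1) • ι z := by
        rw [sub_smul, ← natCast_zsmul (ι z) (ℓ₀ + 1)]
        push_cast
        rfl
      rw [e]
      exact h3
    exact mem_of_zsmul_mem_h103 𝓕 P.pp hℓ₀ne (hιp z) h4
  by_cases hβι : ∀ z, β ⟨ι z, hιF z⟩ = 0
  · -- toric case: contradiction with `q ≢ 1 mod p`
    exfalso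
    have hι𝒯 : ∀ z, ι z ∈ 𝒯 := fun z => hker ⟨ι z, hιF z⟩ (hβι z)
    -- an inverse of `q` mod `p`
    have hcop : IsCoprime (q : ℤ) (P.p : ℤ) := by
      rw [Int.isCoprime_iff_gcd_eq_one, Int.gcd_natCast_natCast]
      exact (Nat.coprime_primes hq P.pp).mpr hqp
    obtain ⟨q', b, hq'⟩ := hcop
    have hq'' : q' * (q : ℤ) = 1 + (-b) * (P.p : ℤ) := by linear_combination hq'
    -- the involution on `E[p]`
    let U : FreyTorsion P →+ FreyTorsion P :=
      q' • (DistribSMul.toAddMonoidHom (FreyTorsion P) φ)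
    have hU : ∀ z, ι (U z) = u (ι z) := by
      intro z
      have h1 : P.p • u (ι z) = 0 := by rw [← map_nsmul, hιp, _root_.map_zero]
      have h2 : φ • ι z = (q : ℤ) • u (ι z) := by
        rw [hφ𝒯 φ hφ (ι z) (hι𝒯 z), natCast_zsmul]
      show ι (q' • (φ • z)) = u (ι z)
      rw [map_zsmul, hισ, h2]
      exact zsmul_inv_h103 hq'' h1
    have hUU : ∀ z, U (U z) = z := by
      intro z
      apply hιinj
      rw [hU, hU, huu _ (hι𝒯 z)]
    have hUσ : ∀ (σ : GQ) (z : FreyTorsion P), U (σ • z) = σ • U z := by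
      intro σ z
      apply hιinj
      rw [hU, hισ, huσ, hισ, hU]
    have hφU : ∀ z : FreyTorsion P, φ • z = (q : ℤ) • U z := by
      intro z
      apply hιinj
      rw [hισ, map_zsmul, hU, hφ𝒯 φ hφ (ι z) (hι𝒯 z), natCast_zsmul]
    have hdet := hDet P q hq hqp A hA φ hφ
    have hsq' : ((q : ZMod P.p)) ^ 2 = (q : ZMod P.p) := by
      rcases involution_eq_one_or_neg_one_h103 P hirr U hUU hUσ with h | h
      · have h1 : ∀ z : FreyTorsion P, φ • z = (q : ℤ) • z := fun z => by rw [hφU, h]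
        rw [det_of_scalar_h103 P φ (q : ℤ) h1] at hdet
        simpa using hdet
      · have h1 : ∀ z : FreyTorsion P, φ • z = (-(q : ℤ)) • z := fun z => by
          rw [hφU, h, smul_neg]
          exact (_root_.neg_smul _ _).symm
        rw [det_of_scalar_h103 P φ (-(q : ℤ)) h1] at hdet
        simpa using hdet
    have : Fact P.p.Prime := ⟨P.pp⟩
    have hq0 : (q : ZMod P.p) ≠ 0 := by
      intro h0
      rw [ZMod.natCast_eq_zero_iff] at h0
      exact hqp ((Nat.prime_dvd_prime_iff_eq P.pp hq).mp h0).symm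
    have hq1' : (q : ZMod P.p) = 1 := by
      have : (q : ZMod P.p) * (q : ZMod P.p) = (q : ZMod P.p) * 1 := by
        rw [mul_one, ← pow_two, hsq']
      exact mul_left_cancel₀ hq0 this
    apply hq1
    rw [← ZMod.natCast_eq_zero_iff, Nat.cast_sub hq.one_le, hq1', Nat.cast_one, sub_self]
  · -- abelian case: the eigensystem occurs in `J₀(M')[p]`
    obtain ⟨z, hz⟩ := not_forall.mp hβι
    set b : JZero M' × JZero M' := β ⟨ι z, hιF z⟩ with hb
    have hpb : P.p • b = 0 := by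
      rw [hb, ← map_nsmul]
      have : P.p • (⟨ι z, hιF z⟩ : 𝓕) = 0 := Subtype.ext (hιp z)
      rw [this, _root_.map_zero]
    have hTb : ∀ ℓ : Nat.Primes, (ℓ : ℕ) ∉ S' →
        (heckeOperatorBar M' ℓ b.1, heckeOperatorBar M' ℓ b.2) = W.apOfModel ℓ • b := by
      intro ℓ hℓS'
      obtain ⟨h1, h2⟩ := hS'1 ℓ ℓ.2 hℓS'
      obtain ⟨hx, hβx⟩ := hβ ℓ h2 ⟨ι z, hιF z⟩
      rw [← hβx, hb, ← map_zsmul]
      congr 1
      exact Subtype.ext (hιT ℓ h1 z)
    have hocc : OccursIn M' P.p S' (fun ℓ => W.apOfModel ℓ) := by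
      by_cases hb1 : b.1 = 0
      · have hb2 : b.2 ≠ 0 := fun h => hz (Prod.ext hb1 h)
        refine ⟨b.2, hb2, ?_, ?_⟩
        · have := congrArg Prod.snd hpb
          simpa using this
        · intro ℓ hℓS'
          have := congrArg Prod.snd (hTb ℓ hℓS')
          simpa using this
      · refine ⟨b.1, hb1, ?_, ?_⟩
        · have := congrArg Prod.fst hpb
          simpa using this
        · intro ℓ hℓS'
          have := congrArg Prod.fst (hTb ℓ hℓS')
          simpa using this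
    obtain ⟨g, 𝔪', hg, hmax, hp𝔪, hcong⟩ :=
      hR3 M' P.p P.pp S' (fun ℓ => W.apOfModel ℓ) hocc
    exact ⟨g, W, 𝔪', hR3' P M' hM'pos g W 𝔪' S' hg hW hmax hp𝔪 hcong⟩

end Fermat.Agent.Ribet.H103
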