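import Fermat.Agent.Ribet.H103.AlgPSpec
import Fermat.Agent.Ribet.H944.WallTargets
import Fermat.Agent.A2.T1.H669.T1
import Fermat.Agent.A2.H129.Kummer

/-!
# RIBET, wall at `p`, target S2 (I4 + I5) — concrete interface and assembly (helper103)

Target (frozen by helper944, `Ribet/H944/WallTargets.lean`):

    S2For p M' A 𝒮 : ∀ x ∈ 𝒮, IsNewTors p M' x → ∀ σ ∈ I_A, ∀ c, CycloAt p σ c → σ • x = c • x

This file:

* `IsKummerFn N p x f`     : `f ≠ 0`, `div f = p · D`, `[D] = x`   (`f ∈ ℚ̄(X₀(N))`);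
* `DeepPureClass p M' A x` : `x` has a Kummer function `ι y`, `y ∈ F_{N,E}` for a GOOD LEVEL `E ∋ ζ_p`
  (`A2.GoodField`), which on a semistable model `D : A2.ModSSData A E (p * M')` is
    - DEEPLY SPLIT: `y ≡ 1 mod (ζ-1)^p w` on both components of both charts
      (`AlgP.IsDeepSplit`), and
    - PURE at every closed point of the special fibre of both charts (`A2.Alg.PureAt`);
* `smul_eq_nsmul_of_kummer` (T, PROVED) : `σ f = h ^ p · f ^ c ⟹ σ • x = c • x`;
* `s2core` (PROVED) : `AlgPStatement → DeepPureClass p M' A x → (σ • x = c • x for σ ∈ I_A, χ(σ) = c)`;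
* `SplitRedClass p M' A x`  : the same with "deeply split" replaced by "the reductions on both
  components are constants times `p`-th powers", on the STANDARD model (coordinate `j · j_p`);
* leaf `DictFor p M' A 𝒮`  : `x ∈ 𝒮`, `p x = 0` ⟹ `SplitRedClass`   (owner of the definition of `𝒮`);
* leaf `NCFor p M' A`      : `x` new + `SplitRedClass` ⟹ `DeepPureClass`   (NORM CONTRACTION I4);
* `s2For_of_leaves` (PROVED) : `AlgPStatement → DictFor → NCFor → S2For p M' A 𝒮`
  (also `ncx_of`, `s2For_of` with the combined leaf `NCXStatement`).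
Board with the sub-leaves of NC: `origin/helper103:coord/RIBET-S2-helper103.md`.
-/

set_option autoImplicit false
set_option linter.style.haveILetI false
set_option synthInstance.maxHeartbeats 400000
set_option maxHeartbeats 1600000

noncomputable section

namespace Fermat.Agent.Ribet.H103.S2

open AlgebraicCurve ModularCurve
open Fermat.Agent.A2 Fermat.Agent.A2.Alg Fermat.Agent.A2.T1.H669
open Fermat.Agent.Ribet.H103.AlgP

/-! ## T: the Kummer dictionary for a scalar action -/

section Dict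

variable {K F : Type*} [Field K] [Field F] [Algebra K F]

/-- **T.**  If `div f = m · D` and `g f = y ^ m · f ^ k`, then `g • [D] = k • [D]`. -/
theorem smul_eq_nsmul_of_kummer (g : SemilinearAut K F) (m k : ℕ) (hm : m ≠ 0)
    (D : Divisor.degZero (K := K) (F := F)) (f : F) (hf : f ≠ 0)
    (hfD : ∀ v : Place K F, v.ord f = (m : ℤ) * (D : Divisor K F) v)
    (y : F) (hy : y ≠ 0) (h : SemilinearAut.toRingAut g f = y ^ m * f ^ k) :
    g • Pic0.mk D = k • Pic0.mk D := by
  set E : Divisor.degZero (K := K) (F := F) := SemilinearAut.degZeroSMulHom g D - k • D with hE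
  have hgoal : g • Pic0.mk D - k • Pic0.mk D = Pic0.mk E := by
    rw [SemilinearAut.pic0_smul_mk]
    rfl
  rw [← sub_eq_zero, hgoal]
  refine (QuotientAddGroup.eq_zero_iff E).2 ?_
  rw [AddSubgroup.mem_addSubgroupOf]
  refine ⟨y, hy, fun w => ?_⟩
  have hEw : (E : Divisor K F) w = (D : Divisor K F) (g⁻¹ • w) - k * (D : Divisor K F) w := by
    simp only [hE, AddSubgroupClass.coe_sub, SemilinearAut.coe_degZeroSMulHom,
      Finsupp.sub_apply, SemilinearAut.divisor_smul_apply, AddSubgroupClass.coe_nsmul,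
      Finsupp.smul_apply, nsmul_eq_mul]
  have h1 : w.ord (SemilinearAut.toRingAut g f) = (g⁻¹ • w).ord f :=
    Fermat.Agent.A2.H129.ord_smul_eq g w f
  have h2 : w.ord (y ^ m * f ^ k) = (m : ℤ) * w.ord y + k * w.ord f := by
    rw [w.ord_mul (pow_ne_zero m hy) (pow_ne_zero k hf), Fermat.Agent.A2.H129.ord_pow,
      Fermat.Agent.A2.H129.ord_pow]
  have hmE : (m : ℤ) * (E : Divisor K F) w = (m : ℤ) * w.ord y := by
    have h3 : (g⁻¹ • w).ord f = (m : ℤ) * w.ord y + k * w.ord f := by
      rw [← h1, h, h2]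
    rw [hfD, hfD] at h3
    rw [hEw]
    linear_combination h3
  have hm' : (m : ℤ) ≠ 0 := by exact_mod_cast hm
  exact mul_left_cancel₀ hm' hmE

end Dict

/-! ## Definitions at the modular level -/

/-- `f` is a Kummer function of the class `x` of order dividing `p`:
`f ≠ 0` and `div f = p · D` with `[D] = x`. -/
def IsKummerFn (N p : ℕ) (x : JZero N) (f : modularFunctionFieldBar N) : Prop :=
  f ≠ 0 ∧ ∃ D : Divisor.degZero (K := AlgebraicClosure ℚ) (F := modularFunctionFieldBar N),
    Pic0.mk D = x ∧ ∀ v : Place (AlgebraicClosure ℚ) (modularFunctionFieldBar N),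
      v.ord f = (p : ℤ) * (D : Divisor (AlgebraicClosure ℚ) (modularFunctionFieldBar N)) v

/-- **Deeply split and pure classes.**  `x ∈ J₀(N)`, `N = p * M'`, has a Kummer function defined
over a good level `E ∋ ζ_p` which, on a semistable model `D` over `R_E`, is `≡ 1` modulo
`(ζ - 1) ^ p · w` on both components of both charts and pure at every closed point of the special
fibre of both charts. -/
def DeepPureClass (p M' : ℕ) (A : ValuationSubring (AlgebraicClosure ℚ)) (x : JZero (p * M')) : Prop :=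
  ∃ (E : IntermediateField ℚ (AlgebraicClosure ℚ)) (_ : GoodField A E) (D : ModSSData A E (p * M'))
    (ζ w : RE A E) (y : FE E (p * M')) (cf : SSChart w D.Bf) (ci : SSChart w D.Bi),
    IsPrimitiveRoot ζ p ∧ Irreducible w ∧
    IsKummerFn (p * M') p x (iota E (modularFunctionFieldFull (p * M')) y) ∧
    IsDeepSplit D.Bf cf ((ζ - 1) ^ p * w) y ∧ IsDeepSplit D.Bi ci ((ζ - 1) ^ p * w) y ∧
    (∀ n : Ideal D.Bf, n.IsMaximal → algebraMap (RE A E) D.Bf w ∈ n → PureAt D.Bf cf p y n) ∧
    (∀ n : Ideal D.Bi, n.IsMaximal → algebraMap (RE A E) D.Bi w ∈ n → PureAt D.Bi ci p y n)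

/-- The standard coordinate `x = j · j_p` of level `N` (`p ∣ N`): equal to
`A2.Mod.jE E N 1 _ * A2.Mod.jE E N p _`, i.e. to `A2.Mod.xE E M p` for `N = M * p`
(`A2/Mod/Spec.lean`; definitions unfolded to keep the imports small). -/
def stdCoord (E : IntermediateField ℚ (AlgebraicClosure ℚ)) (N p : ℕ) [NeZero p]
    (hpN : p ∣ N) : FE E N :=
  (⟨coeffEmb E (qExpand ℚ 1 jq), coeffEmb_mem_laurentBaseChange E (jqd_mem_full N (one_dvd N))⟩ :
      FE E N) *
    ⟨coeffEmb E (qExpand ℚ p jq), coeffEmb_mem_laurentBaseChange E (jqd_mem_full N hpN)⟩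

/-- The reduction of `y` on the component `𝔭` is a constant times a `p`-th power:
`y · g ^ p ∈ Rˣ · (1 + 𝔭 B_𝔭)` for some `g`. -/
def RedPowAt {R F : Type*} [CommRing R] [Field F] [Algebra R F] (B : Subalgebra R F)
    (𝔭 : Ideal B) (p : ℕ) (y : F) : Prop :=
  ∃ g : F, g ≠ 0 ∧ ConstAt B 𝔭 (y * g ^ p)

/-- **Split-reduction classes** (the INPUT of norm contraction; this is what membership in the
split part `𝒮` has to provide).  `x` has a Kummer function `ι y`, `y ∈ F_{N,E}`, `E` a good level,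
which on the STANDARD semistable model (coordinate `j · j_p`) over `R_E` has reductions on both
components of both charts which are constants times `p`-th powers, and is pure at every closed
point of the special fibre of both charts. -/
def SplitRedClass (p M' : ℕ) [NeZero p] (A : ValuationSubring (AlgebraicClosure ℚ))
    (x : JZero (p * M')) : Prop :=
  ∃ (E : IntermediateField ℚ (AlgebraicClosure ℚ)) (_ : GoodField A E)
    (D : ModSSData A E (p * M'))
    (w : RE A E) (y : FE E (p * M')) (cf : SSChart w D.Bf) (ci : SSChart w D.Bi),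
    D.x = stdCoord E (p * M') p (dvd_mul_right p M') ∧ Irreducible w ∧
    IsKummerFn (p * M') p x (iota E (modularFunctionFieldFull (p * M')) y) ∧
    RedPowAt D.Bf cf.p₁ p y ∧ RedPowAt D.Bf cf.p₂ p y ∧
    RedPowAt D.Bi ci.p₁ p y ∧ RedPowAt D.Bi ci.p₂ p y ∧
    (∀ n : Ideal D.Bf, n.IsMaximal → algebraMap (RE A E) D.Bf w ∈ n → PureAt D.Bf cf p y n) ∧
    (∀ n : Ideal D.Bi, n.IsMaximal → algebraMap (RE A E) D.Bi w ∈ n → PureAt D.Bi ci p y n)

/-- **Leaf DICT** (owner of the definition of `𝒮`): the classes of the split part are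
split-reduction classes. -/
def DictFor (p M' : ℕ) [NeZero p] (A : ValuationSubring (AlgebraicClosure ℚ))
    (𝒮 : AddSubgroup (JZero (p * M'))) : Prop :=
  ∀ x ∈ 𝒮, p • x = 0 → SplitRedClass p M' A x

/-- **Leaf NC** (norm contraction, I4): a NEW split-reduction class is deeply split (over a
possibly larger good level containing `ζ_p`) and stays pure. -/
def NCFor (p M' : ℕ) [NeZero M'] [NeZero p] [NeZero (p * M')]
    (A : ValuationSubring (AlgebraicClosure ℚ)) : Prop :=
  ∀ x : JZero (p * M'), Fermat.Agent.Ribet.H944.Wall.IsNewTors p M' x →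
    SplitRedClass p M' A x → DeepPureClass p M' A x

/-- **Leaf NCX** (dictionary for `𝒮` + norm contraction): a new class of the split part is
deeply split and pure. -/
def NCXStatement (p M' : ℕ) [NeZero M'] [NeZero p] [NeZero (p * M')]
    (A : ValuationSubring (AlgebraicClosure ℚ)) (𝒮 : AddSubgroup (JZero (p * M'))) : Prop :=
  ∀ x ∈ 𝒮, Fermat.Agent.Ribet.H944.Wall.IsNewTors p M' x → DeepPureClass p M' A x

/-- NCX from DICT and NC. -/
theorem ncx_of (p M' : ℕ) [NeZero M'] [NeZero p] [NeZero (p * M')]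
    (A : ValuationSubring (AlgebraicClosure ℚ)) (𝒮 : AddSubgroup (JZero (p * M')))
    (hD : DictFor p M' A 𝒮) (hNC : NCFor p M' A) : NCXStatement p M' A 𝒮 :=
  fun x hx hnew => hNC x hnew (hD x hx hnew.1)

/-! ## The core: ALG-p on a deeply split pure class -/

/-- **S2, core.**  On a deeply split pure class inertia acts through the cyclotomic character. -/
theorem s2core (hALG : AlgPStatement) (p M' : ℕ) (hp : p.Prime)
    (A : ValuationSubring (AlgebraicClosure ℚ)) (hA : A.LiesOverPrime p) (x : JZero (p * M'))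
    (hx : DeepPureClass p M' A x) :
    ∀ σ ∈ A.inertiaSubgroupIn ℚ, ∀ c : ℕ, Fermat.Agent.Ribet.H944.Wall.CycloAt p σ c →
      σ • x = c • x := by
  intro σ hσ c hc
  obtain ⟨E, hE, D, ζ, w, y, cf, ci, hζ, hw, ⟨hf0, Dv, hDx, hord⟩, hdf, hdi, hpf, hpi⟩ := hx
  haveI : IsDiscreteValuationRing ↥(RE A E) := hE.dvr
  haveI : HenselianLocalRing ↥(RE A E) := hE.henselian
  haveI : IsAlgClosed (IsLocalRing.ResidueField ↥(RE A E)) := hE.algClosed
  set F₀ := modularFunctionFieldFull (p * M') with hF₀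
  have hy0 : y ≠ 0 := by
    rintro rfl
    exact hf0 (map_zero _)
  have hdiv : DivisibleDiv E p y :=
    divisibleDiv_of_ord E F₀ p y hy0 (fun v => ⟨_, hord v⟩)
  -- the cyclotomic character on `ζ`
  have hk : resR hE σ hσ ζ = ζ ^ c := by
    apply Subtype.ext
    apply Subtype.ext
    show σ (((ζ : ↥(RE A E)) : E) : AlgebraicClosure ℚ) = (((ζ ^ c : ↥(RE A E)) : E) : AlgebraicClosure ℚ)
    have h1 : ((((ζ : ↥(RE A E)) : E) : AlgebraicClosure ℚ)) ^ p = 1 := by
      have := congrArg (fun z : ↥(RE A E) => (((z : E)) : AlgebraicClosure ℚ)) hζ.pow_eq_one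
      simpa using this
    rw [hc _ h1]
    simp
  obtain ⟨h, hh0, hh⟩ := hALG (R := ↥(RE A E)) (E := E) (F := ↥(FE E (p * M'))) p hp
    (natCast_mem_maximalIdeal_RE E hA) ζ hζ w hw D.x D.hx D.hfin D.hconst D.Bf D.Bi D.hBf D.hBi
    cf ci
    (arithmeticRingAut F₀ (hE.res σ hσ))
    (hE.res σ hσ).toRingEquiv (resR hE σ hσ)
    (fun e => arithmeticRingAut_algebraMap F₀ (hE.res σ hσ) e)
    (fun r => rfl)
    (D.hτf hE σ hσ w hw) (D.hτi hE σ hσ w hw)
    c hk y hy0 hdiv hdf hdi hpf hpi
  -- push to `F̄`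
  have h1 := congrArg (iota E F₀) hh
  rw [map_mul, map_pow, map_pow, iota_arithmeticRingAut E F₀ σ (hE.res σ hσ) (fun e => rfl)]
    at h1
  rw [← hDx]
  exact smul_eq_nsmul_of_kummer (arithmeticGalois F₀ σ) p c hp.ne_zero Dv (iota E F₀ y) hf0 hord
    (iota E F₀ h) (iota_ne_zero E F₀ hh0) h1

/-- **S2 from ALG-p, DICT and NC.** -/
theorem s2For_of_leaves (hALG : AlgPStatement) (p M' : ℕ) [NeZero M'] [NeZero p]
    [NeZero (p * M')] (hp : p.Prime) (A : ValuationSubring (AlgebraicClosure ℚ))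
    (hA : A.LiesOverPrime p) (𝒮 : AddSubgroup (JZero (p * M')))
    (hD : DictFor p M' A 𝒮) (hNC : NCFor p M' A) :
    Fermat.Agent.Ribet.H944.Wall.S2For p M' A 𝒮 := by
  intro x hx hnew σ hσ c hc
  exact s2core hALG p M' hp A hA x (hNC x hnew (hD x hx hnew.1)) σ hσ c hc

/-- **S2 from ALG-p and NCX.** -/
theorem s2For_of (hALG : AlgPStatement) (p M' : ℕ) [NeZero M'] [NeZero p] [NeZero (p * M')]
    (hp : p.Prime) (A : ValuationSubring (AlgebraicClosure ℚ)) (hA : A.LiesOverPrime p)
    (𝒮 : AddSubgroup (JZero (p * M'))) (hNCX : NCXStatement p M' A 𝒮) :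
    Fermat.Agent.Ribet.H944.Wall.S2For p M' A 𝒮 := by
  intro x hx hnew σ hσ c hc
  exact s2core hALG p M' hp A hA x (hNCX x hx hnew) σ hσ c hc

end Fermat.Agent.Ribet.H103.S2

end
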